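import Mathlib

set_option autoImplicit false
set_option linter.unusedSectionVars false

namespace Fermat.Agent.S05

open WeierstrassCurve WeierstrassCurve.Affine

variable {F : Type*} [Field F] [DecidableEq F] {W : Affine F}

/-- shifted x-coordinate -/
def Xc (e : F) : W.Point → F
  | .zero => 0
  | .some x _ _ => x - e

/-- the `2y + a₁x + a₃` coordinate -/
def Yc : W.Point → F
  | .zero => 0
  | .some x y _ => 2 * y + W.a₁ * x + W.a₃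

@[simp] lemma Xc_zero (e : F) : Xc e (0 : W.Point) = 0 := rfl
@[simp] lemma Yc_zero : Yc (0 : W.Point) = 0 := rfl
@[simp] lemma Xc_some (e : F) {x y : F} (h : W.Nonsingular x y) :
    Xc e (Point.some x y h) = x - e := rfl
@[simp] lemma Yc_some {x y : F} (h : W.Nonsingular x y) :
    Yc (Point.some x y h) = 2 * y + W.a₁ * x + W.a₃ := rfl

lemma Xc_neg (e : F) (P : W.Point) : Xc e (-P) = Xc e P := by
  cases P <;> rfl

lemma Yc_neg (P : W.Point) : Yc (-P) = - Yc P := by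
  rcases P with _ | ⟨x, y, h⟩
  · simp [← Point.zero_def]
  · simp only [Point.neg_some, Yc_some, negY]
    ring

lemma Xc_eq_iff (e : F) {P Q : W.Point} (hP : P ≠ 0) (hQ : Q ≠ 0) :
    Xc e P = Xc e Q ↔ P = Q ∨ P = -Q := by
  rcases P with _ | ⟨x₁, y₁, h₁⟩
  · exact absurd rfl hP
  rcases Q with _ | ⟨x₂, y₂, h₂⟩
  · exact absurd rfl hQ
  rw [← Point.X_eq_iff]
  simp

section formulas

variable [CharZero F] {e α β : F}
  (hb2 : W.b₂ = -4 * (3 * e + α + β))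
  (hb4 : W.b₄ = 2 * (3 * e ^ 2 + 2 * e * (α + β) + α * β))
  (hb6 : W.b₆ = -4 * e * (e + α) * (e + β))

include hb2 hb4 hb6

lemma Yc_sq (P : W.Point) :
    Yc P ^ 2 = 4 * Xc e P * (Xc e P - α) * (Xc e P - β) := by
  rcases P with _ | ⟨x, y, h⟩
  · simp [← Point.zero_def]
  · have h1 := h.1
    rw [equation_iff] at h1
    simp only [Xc_some, Yc_some]
    simp only [WeierstrassCurve.b₂, WeierstrassCurve.b₄, WeierstrassCurve.b₆] at hb2 hb4 hb6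
    linear_combination 4 * h1 + x ^ 2 * hb2 + 2 * x * hb4 + hb6

omit hb4 hb6 in
lemma Xc_add_of_ne {P Q : W.Point} (hP : P ≠ 0) (hQ : Q ≠ 0) (hne : Xc e P ≠ Xc e Q) :
    Xc e (P + Q) = ((Yc P - Yc Q) / (Xc e P - Xc e Q)) ^ 2 / 4 + (α + β) - Xc e P - Xc e Q := by
  rcases P with _ | ⟨x₁, y₁, h₁⟩
  · exact absurd rfl hP
  rcases Q with _ | ⟨x₂, y₂, h₂⟩
  · exact absurd rfl hQ
  simp only [Xc_some] at hne
  have hx : x₁ ≠ x₂ := fun h => hne (by rw [h])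
  rw [Point.add_of_X_ne hx]
  simp only [Xc_some, Yc_some, addX, slope_of_X_ne hx]
  have hd : x₁ - x₂ ≠ 0 := sub_ne_zero.mpr hx
  have hd' : x₁ - e - (x₂ - e) = x₁ - x₂ := by ring
  rw [hd']
  simp only [WeierstrassCurve.b₂] at hb2
  field_simp
  linear_combination (-(x₁ - x₂) ^ 2) * hb2

lemma Xc_two_nsmul {P : W.Point} (hP : P ≠ 0) (h2 : P + P ≠ 0) :
    Xc e (P + P) * Yc P ^ 2 = (Xc e P ^ 2 - α * β) ^ 2 := by
  rcases P with _ | ⟨x, y, h⟩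
  · exact absurd rfl hP
  have hy : y ≠ W.negY x y := by
    intro hy
    exact h2 (Point.add_self_of_Y_eq hy)
  rw [Point.add_self_of_Y_ne hy]
  have h1 := h.1
  rw [equation_iff] at h1
  simp only [Xc_some, Yc_some, addX, slope_of_Y_ne rfl hy]
  have hd : y - W.negY x y ≠ 0 := sub_ne_zero.mpr hy
  simp only [WeierstrassCurve.b₂, WeierstrassCurve.b₄, WeierstrassCurve.b₆] at hb2 hb4 hb6
  have ha2 : W.a₂ = -(3 * e + α + β) - W.a₁ ^ 2 / 4 := by linear_combination hb2 / 4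
  have ha4 : W.a₄ = (3 * e ^ 2 + 2 * e * (α + β) + α * β) - W.a₁ * W.a₃ / 2 := by
    linear_combination hb4 / 2
  have ha6 : W.a₆ = -e * (e + α) * (e + β) - W.a₃ ^ 2 / 4 := by linear_combination hb6 / 4
  set ℓ := (3 * x ^ 2 + 2 * W.a₂ * x + W.a₄ - W.a₁ * y) / (y - W.negY x y) with hℓ
  have hℓ' : ℓ * (2 * y + W.a₁ * x + W.a₃) = 3 * x ^ 2 + 2 * W.a₂ * x + W.a₄ - W.a₁ * y := by
    rw [hℓ]
    have : y - W.negY x y = 2 * y + W.a₁ * x + W.a₃ := by simp only [negY]; ring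
    rw [this] at hd ⊢
    exact div_mul_cancel₀ _ hd
  rw [ha2, ha4] at hℓ'
  rw [ha2, ha4, ha6] at h1
  rw [ha2]
  linear_combination (ℓ * (2 * y + W.a₁ * x + W.a₃) + (3 * x ^ 2 +
    2 * (-(3 * e + α + β) - W.a₁ ^ 2 / 4) * x + ((3 * e ^ 2 + 2 * e * (α + β) + α * β)
      - W.a₁ * W.a₃ / 2) - W.a₁ * y) + W.a₁ * (2 * y + W.a₁ * x + W.a₃)) * hℓ'
    + (8 * e + 4 * (α + β) - 8 * x) * h1

lemma Xc_add_add_sub {P Q : W.Point} (hP : P ≠ 0) (hQ : Q ≠ 0) (hne : Xc e P ≠ Xc e Q) :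
    (Xc e (P + Q) + Xc e (P - Q)) * (Xc e P - Xc e Q) ^ 2 =
      2 * ((Xc e P + Xc e Q) * (α * β + Xc e P * Xc e Q) - 2 * (α + β) * (Xc e P * Xc e Q)) := by
  have hQ' : -Q ≠ 0 := neg_ne_zero.mpr hQ
  have hne' : Xc e P ≠ Xc e (-Q) := by rwa [Xc_neg]
  rw [sub_eq_add_neg, Xc_add_of_ne hb2 hP hQ hne, Xc_add_of_ne hb2 hP hQ' hne', Xc_neg, Yc_neg]
  have h1 := Yc_sq hb2 hb4 hb6 P
  have h2 := Yc_sq hb2 hb4 hb6 Q
  have hd : Xc e P - Xc e Q ≠ 0 := sub_ne_zero.mpr hne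
  generalize Xc e P = X₁ at *
  generalize Xc e Q = X₂ at *
  generalize Yc P = Y₁ at *
  generalize Yc Q = Y₂ at *
  field_simp
  linear_combination 2 * h1 + 2 * h2

lemma Xc_add_mul_sub {P Q : W.Point} (hP : P ≠ 0) (hQ : Q ≠ 0) (hne : Xc e P ≠ Xc e Q) :
    Xc e (P + Q) * Xc e (P - Q) * (Xc e P - Xc e Q) ^ 2 = (Xc e P * Xc e Q - α * β) ^ 2 := by
  have hQ' : -Q ≠ 0 := neg_ne_zero.mpr hQ
  have hne' : Xc e P ≠ Xc e (-Q) := by rwa [Xc_neg]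
  rw [sub_eq_add_neg, Xc_add_of_ne hb2 hP hQ hne, Xc_add_of_ne hb2 hP hQ' hne', Xc_neg, Yc_neg]
  have h1 := Yc_sq hb2 hb4 hb6 P
  have h2 := Yc_sq hb2 hb4 hb6 Q
  have hd : Xc e P - Xc e Q ≠ 0 := sub_ne_zero.mpr hne
  generalize Xc e P = X₁ at *
  generalize Xc e Q = X₂ at *
  generalize Yc P = Y₁ at *
  generalize Yc Q = Y₂ at *
  field_simp
  linear_combination ((Y₁ ^ 2 - Y₂ ^ 2 + 4 * X₁ * (X₁ - α) * (X₁ - β) - 4 * X₂ * (X₂ - α) * (X₂ - β))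
      + 8 * (α + β - X₁ - X₂) * (X₁ - X₂) ^ 2) * h1
    + (-(Y₁ ^ 2 - Y₂ ^ 2 + 4 * X₁ * (X₁ - α) * (X₁ - β) - 4 * X₂ * (X₂ - α) * (X₂ - β))
      + 8 * (α + β - X₁ - X₂) * (X₁ - X₂) ^ 2) * h2

end formulas

end Fermat.Agent.S05
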