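import Fermat.Agent.S05.AbstractMain
import Fermat.Agent.S05.XFormulas
import Fermat.Agent.S05.Inertia

set_option autoImplicit false
set_option linter.unusedSectionVars false
set_option linter.unusedVariables false

namespace Fermat.Agent.S05

open WeierstrassCurve WeierstrassCurve.Affine WeierstrassCurve.Affine.Point

lemma isXY_of {F : Type*} [Field F] [DecidableEq F] [CharZero F] {W : Affine F} {e α β : F}
    (hb2 : W.b₂ = -4 * (3 * e + α + β))
    (hb4 : W.b₄ = 2 * (3 * e ^ 2 + 2 * e * (α + β) + α * β))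
    (hb6 : W.b₆ = -4 * e * (e + α) * (e + β)) :
    IsXY (Xc e : W.Point → F) Yc α β where
  X_zero := rfl
  X_neg := Xc_neg e
  Y_neg := Yc_neg
  X_eq_iff := fun hP hQ => Xc_eq_iff e hP hQ
  Y_sq := Yc_sq hb2 hb4 hb6
  dbl := fun hP hPP => Xc_two_nsmul hb2 hb4 hb6 hP hPP
  add_add_sub := fun hP hQ hne => Xc_add_add_sub hb2 hb4 hb6 hP hQ hne
  add_mul_sub := fun hP hQ hne => Xc_add_mul_sub hb2 hb4 hb6 hP hQ hne

variable {K : Type*} [Field K] [DecidableEq K] [Algebra ℚ K] [CharZero K]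

theorem fix_of_inertia (W' : Affine ℚ) (A : ValuationSubring K) {σ : K ≃ₐ[ℚ] K}
    (hσ : σ ∈ A.inertiaSubgroupIn ℚ) {e α β : ℚ}
    (hb2 : W'.b₂ = -4 * (3 * e + α + β))
    (hb4 : W'.b₄ = 2 * (3 * e ^ 2 + 2 * e * (α + β) + α * β))
    (hb6 : W'.b₆ = -4 * e * (e + α) * (e + β))
    (hα1 : A.valuation (algebraMap ℚ K α) ≤ 1) (hα0 : α ≠ 0)
    (hβ : A.valuation (algebraMap ℚ K β) = 1)
    (hαβ : A.valuation (algebraMap ℚ K (α - β)) = 1) (h2 : A.valuation (2 : K) = 1)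
    {p : ℕ} (hp : p.Prime) (hp2 : p ≠ 2) (hvp : A.valuation (p : K) = 1)
    (hmult : A.valuation (algebraMap ℚ K α) < 1 →
      ∃ a₀ : ℚ, A.valuation (algebraMap ℚ K α) = A.valuation (algebraMap ℚ K a₀) ^ p)
    (x : (W'⁄K).Point) (hx : p • x = 0) : σ • x = x := by
  have hb2' : (W'⁄K).b₂ = -4 * (3 * algebraMap ℚ K e + algebraMap ℚ K α + algebraMap ℚ K β) := by
    change (W'.map (algebraMap ℚ K)).b₂ = _
    rw [map_b₂, hb2]; simp
  have hb4' : (W'⁄K).b₄ = 2 * (3 * algebraMap ℚ K e ^ 2 + 2 * algebraMap ℚ K e *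
      (algebraMap ℚ K α + algebraMap ℚ K β) + algebraMap ℚ K α * algebraMap ℚ K β) := by
    change (W'.map (algebraMap ℚ K)).b₄ = _
    rw [map_b₄, hb4]; simp
  have hb6' : (W'⁄K).b₆ = -4 * algebraMap ℚ K e * (algebraMap ℚ K e + algebraMap ℚ K α) *
      (algebraMap ℚ K e + algebraMap ℚ K β) := by
    change (W'.map (algebraMap ℚ K)).b₆ = _
    rw [map_b₆, hb6]; simp
  have hXY := isXY_of hb2' hb4' hb6'
  refine sigma_fix (v := A.valuation) (σG := fun x => σ • x) (σK := (σ : K →+* K)) hXY hα1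
    ((map_ne_zero _).mpr hα0) hβ (by rw [← map_sub]; exact hαβ) h2 hp hp2 hvp ?_ ?_ ?_ ?_ ?_ ?_ ?_ hx
  · intro P hP
    exact (smul_ne_zero_iff_ne σ).mpr hP
  · intro P hP
    change p • (σ • P) = 0
    rw [algEquiv_smul_def, ← map_nsmul, hP, _root_.map_zero]
  · intro P
    rcases P with _ | ⟨x, y, h⟩
    · change (0 : K) = σ 0
      simp
    · change σ x - algebraMap ℚ K e = σ (x - algebraMap ℚ K e)
      simp
  · intro P
    rcases P with _ | ⟨x, y, h⟩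
    · change (0 : K) = σ 0
      simp
    · change 2 * σ y + (W'⁄K).a₁ * σ x + (W'⁄K).a₃ = σ (2 * y + (W'⁄K).a₁ * x + (W'⁄K).a₃)
      simp [WeierstrassCurve.baseChange, map_ofNat]
  · intro x hx
    exact inertia_congr A hσ hx
  · rfl
  · intro h
    obtain ⟨a₀, ha₀⟩ := hmult h
    exact ⟨algebraMap ℚ K a₀, by simp, ha₀⟩

end Fermat.Agent.S05
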