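import Fermat.Agent.S05.ClaimB

set_option autoImplicit false
set_option linter.unusedSectionVars false
set_option linter.unusedVariables false

namespace Fermat.Agent.S05

variable {G : Type*} [AddCommGroup G] {K : Type*} [Field K]
  {Γ₀ : Type*} [LinearOrderedCommGroupWithZero Γ₀]
  {v : Valuation K Γ₀} {α β : K}

lemma v_four (h2 : v (2 : K) = 1) : v (4 : K) = 1 := by
  have : (4 : K) = 2 * 2 := by norm_num
  rw [this, map_mul, h2, one_mul]

lemma lt1_of_pow_lt1 {a : K} {n : ℕ} (h : v (a ^ n) < 1) : v a < 1 := by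
  rw [map_pow] at h
  by_contra hcon
  push Not at hcon
  exact absurd h (not_lt.mpr (one_le_pow₀ hcon))

lemma NC (hα1 : v α ≤ 1) (hβ : v β = 1) (hαβ : v (α - β) = 1) (h2 : v (2 : K) = 1) {x : K}
    (hx : v x ≤ 1) (hcase : v α = 1 ∨ v x = 1) (h1 : v (x ^ 2 - α * β) < 1)
    (h3 : v (4 * x * (x - α) * (x - β)) < 1) : False := by
  have hxa : v (x - α) ≤ 1 := le1_sub v hx hα1
  have hxb : v (x - β) ≤ 1 := le1_sub v hx hβ.le
  rw [map_mul, map_mul, map_mul, v_four h2, one_mul] at h3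
  by_cases c1 : v x < 1
  · have hα : v α = 1 := by
      rcases hcase with h | h
      · exact h
      · exact absurd h c1.ne
    have : v (x ^ 2 - α * β) = 1 := by
      have h4 : v (α * β) = 1 := by rw [map_mul, hα, hβ, one_mul]
      rw [← h4]
      apply Valuation.map_sub_eq_of_lt_right
      rw [h4, map_pow]
      exact pow_lt_one₀ zero_le c1 two_ne_zero
    exact h1.ne this
  have c1' : v x = 1 := le_antisymm hx (not_lt.mp c1)
  by_cases c2 : v (x - α) < 1
  · have h4 : α * (α - β) = (x ^ 2 - α * β) - (x - α) * (x + α) := by ring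
    have h5 : v (α * (α - β)) < 1 := by
      rw [h4]
      exact lt1_sub v h1 (lt1_mul_left v c2 (le1_add v hx hα1))
    rw [map_mul, hαβ, mul_one] at h5
    have h6 : v x < 1 := by
      have : x = (x - α) + α := by ring
      rw [this]
      exact lt1_add v c2 h5
    exact c1 h6
  have c2' : v (x - α) = 1 := le_antisymm hxa (not_lt.mp c2)
  rw [c1', c2', one_mul, one_mul] at h3
  have h4 : β * (β - α) = (x ^ 2 - α * β) - (x - β) * (x + β) := by ring
  have h5 : v (β * (β - α)) < 1 := by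
    rw [h4]
    exact lt1_sub v h1 (lt1_mul_left v h3 (le1_add v hx hβ.le))
  rw [map_mul, hβ, one_mul, Valuation.map_sub_swap, hαβ] at h5
  exact lt_irrefl _ h5

section main

variable {X Y : G → K} (h : IsXY X Y α β)
  (hα1 : v α ≤ 1) (hα0 : α ≠ 0) (hβ : v β = 1) (hαβ : v (α - β) = 1) (h2 : v (2 : K) = 1)
  {p : ℕ} (hp : p.Prime) (hp2 : p ≠ 2) (hvp : v (p : K) = 1)
  {σG : G → G} {σK : K →+* K}
  (hσ0 : ∀ P, P ≠ 0 → σG P ≠ 0)
  (hσp : ∀ P, p • P = 0 → p • σG P = 0)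
  (hσX : ∀ P, X (σG P) = σK (X P))
  (hσY : ∀ P, Y (σG P) = σK (Y P))
  (hσI : ∀ x, v x ≤ 1 → v (σK x - x) < 1)

include h hα1 hα0 hβ hαβ h2 hp hp2 hvp

lemma intX' {Q : G} (hQ : Q ≠ 0) (hpQ : p • Q = 0) : v (X Q) ≤ 1 := by
  have hβ0 : β ≠ 0 := by
    intro h0; rw [h0, map_zero] at hβ; exact zero_ne_one hβ
  exact claimA h hα1 hβ.le hα0 hβ0 hp hp2 hvp hQ hpQ

/-- Case I: `X` coordinates of `P` and a congruent torsion point `Q` agree. -/
lemma X_eq_caseI {P Q : G} (hP : P ≠ 0) (hpP : p • P = 0) (hQ : Q ≠ 0) (hpQ : p • Q = 0)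
    (hcase : v α = 1 ∨ v (X P) = 1) (hcong : v (X Q - X P) < 1) : X P = X Q := by
  by_contra hne
  have hI : ∀ {R : G}, R ≠ 0 → p • R = 0 → v (X R) ≤ 1 :=
    fun hR hpR => intX' h hα1 hα0 hβ hαβ h2 hp hp2 hvp hR hpR
  have hs0 : P + Q ≠ 0 := by
    intro h0; apply hne
    rw [eq_neg_of_add_eq_zero_left h0, h.X_neg]
  have hd0 : P - Q ≠ 0 := by
    intro h0; apply hne; rw [sub_eq_zero.mp h0]
  have hps : p • (P + Q) = 0 := by rw [smul_add, hpP, hpQ, add_zero]
  have hpd : p • (P - Q) = 0 := by rw [smul_sub, hpP, hpQ, sub_zero]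
  have hadd := h.add_add_sub hP hQ hne
  have hmul := h.add_mul_sub hP hQ hne
  have hx := hI hP hpP
  have hy := hI hQ hpQ
  have hr1 := hI hs0 hps
  have hr2 := hI hd0 hpd
  have hcong' : v (X P - X Q) < 1 := by rw [Valuation.map_sub_swap]; exact hcong
  have hd2 : v ((X P - X Q) ^ 2) < 1 := by
    rw [sq]; exact lt1_mul_left v hcong' hcong'.le
  have h3 : v (X P * X Q - α * β) < 1 := by
    apply lt1_of_pow_lt1 (n := 2)
    rw [← hmul]
    exact lt1_mul_right v (le1_mul v hr1 hr2) hd2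
  have h4 : v (X P ^ 2 - α * β) < 1 := by
    have : X P ^ 2 - α * β = (X P * X Q - α * β) - X P * (X Q - X P) := by ring
    rw [this]
    exact lt1_sub v h3 (lt1_mul_right v hx hcong)
  have h5 : v (4 * X P * (X P - α) * (X P - β)) < 1 := by
    have : 4 * X P * (X P - α) * (X P - β) =
        (X (P + Q) + X (P - Q)) * (X P - X Q) ^ 2 -
          (X Q - X P) * (2 * (α * β + 2 * X P ^ 2 + X P * X Q - 2 * (α + β) * X P)) := by
      rw [hadd]; ring
    rw [this]
    apply lt1_sub v (lt1_mul_right v (le1_add v hr1 hr2) hd2)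
    apply lt1_mul_left v hcong
    have h2' : v (2 : K) ≤ 1 := h2.le
    have hβ' := hβ.le
    apply_rules [le1_add, le1_sub, le1_mul, le1_pow]
  exact NC hα1 hβ hαβ h2 hx hcase h4 h5

/-- Case I: sign. -/
lemma sign_caseI {P : G} (hP : P ≠ 0) (hpP : p • P = 0)
    (hcase : v α = 1 ∨ v (X P) = 1) (hY : v (Y P) < 1) : False := by
  have hI : ∀ {R : G}, R ≠ 0 → p • R = 0 → v (X R) ≤ 1 :=
    fun hR hpR => intX' h hα1 hα0 hβ hαβ h2 hp hp2 hvp hR hpR
  have hPP := add_self_ne_zero_of_prime hp hp2 hP hpP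
  have hpPP : p • (P + P) = 0 := by rw [smul_add, hpP, add_zero]
  have hd := h.dbl hP hPP
  have hY2 : v (Y P ^ 2) < 1 := by rw [sq]; exact lt1_mul_left v hY hY.le
  have h4 : v (X P ^ 2 - α * β) < 1 := by
    apply lt1_of_pow_lt1 (n := 2)
    rw [← hd]
    exact lt1_mul_right v (hI hPP hpPP) hY2
  rw [h.Y_sq] at hY2
  exact NC hα1 hβ hαβ h2 (hI hP hpP) hcase h4 hY2

lemma X_eq_caseII (hα : v α < 1) {P Q : G} (hP : P ≠ 0) (hpP : p • P = 0) (hQ : Q ≠ 0)
    (hpQ : p • Q = 0) (hXP : v (X P) < 1) (hvXQ : v (X Q) = v (X P))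
    (hcong : v (X Q - X P) < v (X P)) : X P = X Q := by
  by_contra hne
  have hI : ∀ {R : G}, R ≠ 0 → p • R = 0 → v (X R) ≤ 1 :=
    fun hR hpR => intX' h hα1 hα0 hβ hαβ h2 hp hp2 hvp hR hpR
  have hs0 : P + Q ≠ 0 := by
    intro h0; apply hne
    rw [eq_neg_of_add_eq_zero_left h0, h.X_neg]
  have hd0 : P - Q ≠ 0 := by
    intro h0; apply hne; rw [sub_eq_zero.mp h0]
  have hps : p • (P + Q) = 0 := by rw [smul_add, hpP, hpQ, add_zero]
  have hpd : p • (P - Q) = 0 := by rw [smul_sub, hpP, hpQ, sub_zero]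
  have hadd := h.add_add_sub hP hQ hne
  have hr1 := hI hs0 hps
  have hr2 := hI hd0 hpd
  have hN := claimN h hα hα0 hβ h2 hp hp2 hvp hP hpP hXP
  have hx0 : 0 < v (X P) := lt_of_le_of_lt zero_le hN
  have h3 := L1 hα hβ h2 hN hXP (by rw [hvXQ]; exact hN) (by rw [hvXQ]; exact hXP)
  rw [← hadd, map_mul, map_pow, hvXQ, Valuation.map_sub_swap] at h3
  have h4 : v (X (P + Q) + X (P - Q)) * v (X Q - X P) ^ 2 < v (X P) * v (X P) := by
    calc v (X (P + Q) + X (P - Q)) * v (X Q - X P) ^ 2 ≤ 1 * v (X Q - X P) ^ 2 := by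
          gcongr; exact le1_add v hr1 hr2
      _ = v (X Q - X P) * v (X Q - X P) := by rw [one_mul, sq]
      _ < v (X P) * v (X P) := by gcongr <;> exact zero_le
  exact h4.ne h3

lemma sign_caseII (hα : v α < 1) {P : G} (hP : P ≠ 0) (hpP : p • P = 0) (hXP : v (X P) < 1) :
    v (Y P / X P) = 1 := by
  have hN := claimN h hα hα0 hβ h2 hp hp2 hvp hP hpP hXP
  have hx0 : 0 < v (X P) := lt_of_le_of_lt zero_le hN
  have h3 := congrArg v (h.Y_sq P)
  have h5 : v (X P - α) = v (X P) := Valuation.map_sub_eq_of_lt_left v hN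
  have h6 : v (X P - β) = 1 := by
    rw [← hβ]; exact Valuation.map_sub_eq_of_lt_right v (by rw [hβ]; exact hXP)
  rw [map_pow, map_mul, map_mul, map_mul, v_four h2, h5, h6, one_mul, mul_one, ← sq] at h3
  have h7 : v (Y P) = v (X P) := (pow_left_inj₀ zero_le zero_le two_ne_zero).mp h3
  rw [map_div₀, h7]
  exact div_self hx0.ne'

include hσ0 hσp hσX hσY hσI

theorem sigma_fix (hσzero : σG 0 = 0)
    (hmult : v α < 1 → ∃ a₀ : K, σK a₀ = a₀ ∧ v α = v a₀ ^ p) {P : G} (hpP : p • P = 0) :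
    σG P = P := by
  by_cases hP : P = 0
  · subst hP; exact hσzero
  have hI : ∀ {R : G}, R ≠ 0 → p • R = 0 → v (X R) ≤ 1 :=
    fun hR hpR => intX' h hα1 hα0 hβ hαβ h2 hp hp2 hvp hR hpR
  have hQ := hσ0 P hP
  have hpQ := hσp P hpP
  have hx := hI hP hpP
  by_cases hcase : v α = 1 ∨ v (X P) = 1
  · have hcong : v (X (σG P) - X P) < 1 := by rw [hσX]; exact hσI _ hx
    have hXeq := X_eq_caseI h hα1 hα0 hβ hαβ h2 hp hp2 hvp hP hpP hQ hpQ hcase hcong
    rcases (h.X_eq_iff hQ hP).1 hXeq.symm with h' | h'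
    · exact h'
    · exfalso
      have hY : σK (Y P) = - Y P := by rw [← hσY, h', h.Y_neg]
      have hY1 : v (Y P) ≤ 1 := by
        have h3 : v (Y P ^ 2) ≤ 1 := by
          rw [h.Y_sq]
          have h4' : v (4 : K) ≤ 1 := le1_ofNat v 4
          have := hβ.le
          apply_rules [le1_add, le1_sub, le1_mul, le1_pow]
        rw [map_pow] at h3
        exact (pow_le_one_iff_of_nonneg zero_le two_ne_zero).mp h3
      have h4 := hσI _ hY1
      rw [hY] at h4
      have h5 : - Y P - Y P = -(2 * Y P) := by ring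
      rw [h5, Valuation.map_neg, map_mul, h2, one_mul] at h4
      exact sign_caseI h hα1 hα0 hβ hαβ h2 hp hp2 hvp hP hpP hcase h4
  · push Not at hcase
    have hα : v α < 1 := lt_of_le_of_ne hα1 hcase.1
    have hXP : v (X P) < 1 := lt_of_le_of_ne hx hcase.2
    have hN := claimN h hα hα0 hβ h2 hp hp2 hvp hP hpP hXP
    have hx0 : 0 < v (X P) := lt_of_le_of_lt zero_le hN
    obtain ⟨a₀, ha₀, hva⟩ := hmult hα
    obtain ⟨n, hn⟩ := claimB h hα hα0 hβ h2 hp hp2 hvp hP hpP hXP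
    have hvx : v (X P) = v (a₀ ^ (2 * n)) := by
      rw [map_zpow₀]
      apply (pow_left_inj₀ zero_le zero_le hp.ne_zero).mp
      rw [hn, hva, ← zpow_natCast, ← zpow_natCast, ← zpow_mul, ← zpow_mul, mul_comm]
    have hπ0 : a₀ ^ (2 * n) ≠ 0 := by
      intro h0; rw [h0, map_zero] at hvx; exact hx0.ne' hvx
    have hσπ : σK (a₀ ^ (2 * n)) = a₀ ^ (2 * n) := by rw [map_zpow₀, ha₀]
    have hU : v (X P / a₀ ^ (2 * n)) ≤ 1 := by
      rw [map_div₀, hvx, div_self ((Valuation.ne_zero_iff v).mpr hπ0)]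
    have h3 := hσI _ hU
    rw [map_div₀, hσπ, ← sub_div, map_div₀, ← hvx] at h3
    have hcong : v (X (σG P) - X P) < v (X P) := by
      rw [hσX]
      exact (div_lt_one₀ hx0).mp h3
    have hvXQ : v (X (σG P)) = v (X P) := by
      have : X (σG P) = (X (σG P) - X P) + X P := by ring
      rw [this]
      exact Valuation.map_add_eq_of_lt_right v hcong
    have hXeq := X_eq_caseII h hα1 hα0 hβ hαβ h2 hp hp2 hvp hα hP hpP hQ hpQ hXP hvXQ hcong
    rcases (h.X_eq_iff hQ hP).1 hXeq.symm with h' | h'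
    · exact h'
    · exfalso
      have hY : σK (Y P) = - Y P := by rw [← hσY, h', h.Y_neg]
      have hX : σK (X P) = X P := by rw [← hσX, ← hXeq]
      have hW := sign_caseII h hα1 hα0 hβ hαβ h2 hp hp2 hvp hα hP hpP hXP
      have h4 := hσI _ hW.le
      rw [map_div₀, hY, hX] at h4
      have h5 : - Y P / X P - Y P / X P = -(2 * (Y P / X P)) := by ring
      rw [h5, Valuation.map_neg, map_mul, h2, one_mul, hW] at h4
      exact lt_irrefl _ h4

end main

end Fermat.Agent.S05
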