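import Fermat.Agent.S51.GroupLaw

set_option autoImplicit false
set_option linter.unusedSectionVars false

/-!
# x-only addition formulas for Mathlib's `WeierstrassCurve.Affine.Point`
`x(P+Q) + x(P-Q)` and `x(P+Q) * x(P-Q)` in terms of `x(P)`, `x(Q)` for a general Weierstrass curve.
-/

namespace Fermat.Agent.S05

open WeierstrassCurve WeierstrassCurve.Affine Fermat.Agent.S51

variable {K : Type*} [Field K] [DecidableEq K] {W : WeierstrassCurve.Affine K}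

/-- Numerator of `x(P+Q) + x(P-Q)`. -/
def sumNum (W : WeierstrassCurve.Affine K) (x₁ x₂ : K) : K :=
  2 * (x₁ + x₂) * x₁ * x₂ + W.b₂ * x₁ * x₂ + W.b₄ * (x₁ + x₂) + W.b₆

/-- Numerator of `x(P+Q) * x(P-Q)`. -/
def prodNum (W : WeierstrassCurve.Affine K) (x₁ x₂ : K) : K :=
  (x₁ * x₂) ^ 2 - W.b₄ * x₁ * x₂ - W.b₆ * (x₁ + x₂) - W.b₈

theorem sumNum_self (x : K) : sumNum W x x = S2 W x := by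
  simp only [sumNum, S2]; ring

theorem prodNum_self (x : K) : prodNum W x x = P2 W x := by
  simp only [prodNum, P2]; ring

theorem hasX_ne_of_add_sub {P Q : W.Point} {x₁ x₂ x₃ x₄ : K} (h₁ : HasX W P x₁)
    (h₂ : HasX W Q x₂) (h₃ : HasX W (P + Q) x₃) (h₄ : HasX W (P - Q) x₄) : x₁ ≠ x₂ := by
  rintro rfl
  rcases h₁.eq_or_eq_neg h₂ with h | h
  · exact h₄.ne_zero (by rw [h, sub_self])
  · exact h₃.ne_zero (by rw [h, neg_add_cancel])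

theorem addsub_aux {P Q : W.Point} {x₁ x₂ x₃ x₄ : K} (h₁ : HasX W P x₁)
    (h₂ : HasX W Q x₂) (h₃ : HasX W (P + Q) x₃) (h₄ : HasX W (P - Q) x₄) :
    (x₃ + x₄) * (x₁ - x₂) ^ 2 = sumNum W x₁ x₂ ∧ x₃ * x₄ * (x₁ - x₂) ^ 2 = prodNum W x₁ x₂ := by
  have hne := hasX_ne_of_add_sub h₁ h₂ h₃ h₄
  obtain ⟨y₁, hn₁, rfl⟩ := h₁
  obtain ⟨y₂, hn₂, rfl⟩ := h₂
  have hd : x₁ - x₂ ≠ 0 := sub_ne_zero.mpr hne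
  have e₁ := (equation_iff x₁ y₁).mp hn₁.1
  have e₂ := (equation_iff x₂ y₂).mp hn₂.1
  have h3' : HasX W (Point.some x₁ y₁ hn₁ + Point.some x₂ y₂ hn₂)
      (W.addX x₁ x₂ (W.slope x₁ x₂ y₁ y₂)) := ⟨_, _, Point.add_of_X_ne hne⟩
  have h4' : HasX W (Point.some x₁ y₁ hn₁ - Point.some x₂ y₂ hn₂)
      (W.addX x₁ x₂ (W.slope x₁ x₂ y₁ (W.negY x₂ y₂))) := by
    rw [sub_eq_add_neg, Point.neg_some]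
    exact ⟨_, _, Point.add_of_X_ne hne⟩
  rw [h₃.unique h3', h₄.unique h4', slope_of_X_ne hne, slope_of_X_ne hne]
  set d := x₁ - x₂ with hdd
  have k3 : W.addX x₁ x₂ ((y₁ - y₂) / d) * d ^ 2 =
      (y₁ - y₂) ^ 2 + W.a₁ * (y₁ - y₂) * d - (W.a₂ + x₁ + x₂) * d ^ 2 := by
    simp only [addX]; field_simp; ring
  have k4 : W.addX x₁ x₂ ((y₁ - W.negY x₂ y₂) / d) * d ^ 2 =
      (y₁ - W.negY x₂ y₂) ^ 2 + W.a₁ * (y₁ - W.negY x₂ y₂) * d - (W.a₂ + x₁ + x₂) * d ^ 2 := by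
    simp only [addX]; field_simp; ring
  constructor
  · rw [add_mul, k3, k4, hdd]
    simp only [sumNum, negY, WeierstrassCurve.b₂, WeierstrassCurve.b₄, WeierstrassCurve.b₆]
    linear_combination 2 * e₁ + 2 * e₂
  · have hd2 : d ^ 2 ≠ 0 := pow_ne_zero 2 hd
    apply mul_right_cancel₀ hd2
    have : W.addX x₁ x₂ ((y₁ - y₂) / d) * W.addX x₁ x₂ ((y₁ - W.negY x₂ y₂) / d) * d ^ 2 * d ^ 2 =
        (W.addX x₁ x₂ ((y₁ - y₂) / d) * d ^ 2) *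
          (W.addX x₁ x₂ ((y₁ - W.negY x₂ y₂) / d) * d ^ 2) := by ring
    rw [this, k3, k4, hdd]
    simp only [prodNum, negY, WeierstrassCurve.b₄, WeierstrassCurve.b₆, WeierstrassCurve.b₈]
    linear_combination ( -x₁ ^ 3 + 2 * x₁ ^ 2 * x₂ - x₁ ^ 2 * W.a₂ + 2 * x₁ * x₂ ^ 2 + x₁ * x₂ * W.a₁ ^ 2 + 4 * x₁ * x₂ * W.a₂ + x₁ * y₁ * W.a₁ + x₁ * W.a₁ * W.a₃ + x₁ * W.a₄ - 2 * x₂ ^ 3 - x₂ ^ 2 * W.a₁ ^ 2 - 2 * x₂ ^ 2 * W.a₂ - 2 * x₂ * y₂ * W.a₁ - x₂ * W.a₁ * W.a₃ + y₁ ^ 2 + y₁ * W.a₃ - 2 * y₂ ^ 2 - 2 * y₂ * W.a₃ + W.a₆ ) * e₁ + ( -4 * x₁ ^ 3 + 2 * x₁ ^ 2 * x₂ - x₁ ^ 2 * W.a₁ ^ 2 - 4 * x₁ ^ 2 * W.a₂ + 2 * x₁ * x₂ ^ 2 + x₁ * x₂ * W.a₁ ^ 2 + 4 * x₁ * x₂ * W.a₂ - x₁ * W.a₁ * W.a₃ - 2 * x₁ * W.a₄ - x₂ ^ 3 - x₂ ^ 2 * W.a₂ + x₂ * y₂ * W.a₁ + x₂ * W.a₁ * W.a₃ + x₂ * W.a₄ + y₂ ^ 2 + y₂ * W.a₃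 - W.a₆ ) * e₂

/-- `(x(P+Q) + x(P-Q)) (x(P) - x(Q))² = 2(x₁+x₂)x₁x₂ + b₂x₁x₂ + b₄(x₁+x₂) + b₆`. -/
theorem hasX_sum {P Q : W.Point} {x₁ x₂ x₃ x₄ : K} (h₁ : HasX W P x₁)
    (h₂ : HasX W Q x₂) (h₃ : HasX W (P + Q) x₃) (h₄ : HasX W (P - Q) x₄) :
    (x₃ + x₄) * (x₁ - x₂) ^ 2 = sumNum W x₁ x₂ := (addsub_aux h₁ h₂ h₃ h₄).1

/-- `x(P+Q) x(P-Q) (x(P) - x(Q))² = (x₁x₂)² - b₄x₁x₂ - b₆(x₁+x₂) - b₈`. -/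
theorem hasX_prod {P Q : W.Point} {x₁ x₂ x₃ x₄ : K} (h₁ : HasX W P x₁)
    (h₂ : HasX W Q x₂) (h₃ : HasX W (P + Q) x₃) (h₄ : HasX W (P - Q) x₄) :
    x₃ * x₄ * (x₁ - x₂) ^ 2 = prodNum W x₁ x₂ := (addsub_aux h₁ h₂ h₃ h₄).2

end Fermat.Agent.S05
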