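import Mathlib

set_option autoImplicit false
set_option linter.unusedSectionVars false

namespace Fermat.Agent.S05

variable {G : Type*} [AddCommGroup G] {K : Type*} [Field K]
  {Γ₀ : Type*} [LinearOrderedCommGroupWithZero Γ₀]

/-- abstract `x`-only arithmetic of the curve `Y² = 4X(X-α)(X-β)`. -/
structure IsXY (X Y : G → K) (α β : K) : Prop where
  X_zero : X 0 = 0
  X_neg : ∀ P, X (-P) = X P
  Y_neg : ∀ P, Y (-P) = - Y P
  X_eq_iff : ∀ {P Q : G}, P ≠ 0 → Q ≠ 0 → (X P = X Q ↔ P = Q ∨ P = -Q)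
  Y_sq : ∀ P, Y P ^ 2 = 4 * X P * (X P - α) * (X P - β)
  dbl : ∀ {P : G}, P ≠ 0 → P + P ≠ 0 → X (P + P) * Y P ^ 2 = (X P ^ 2 - α * β) ^ 2
  add_add_sub : ∀ {P Q : G}, P ≠ 0 → Q ≠ 0 → X P ≠ X Q →
    (X (P + Q) + X (P - Q)) * (X P - X Q) ^ 2 =
      2 * ((X P + X Q) * (α * β + X P * X Q) - 2 * (α + β) * (X P * X Q))
  add_mul_sub : ∀ {P Q : G}, P ≠ 0 → Q ≠ 0 → X P ≠ X Q →
    X (P + Q) * X (P - Q) * (X P - X Q) ^ 2 = (X P * X Q - α * β) ^ 2

section val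

variable (v : Valuation K Γ₀)

lemma le1_add {a b : K} (ha : v a ≤ 1) (hb : v b ≤ 1) : v (a + b) ≤ 1 := v.map_add_le ha hb
lemma le1_sub {a b : K} (ha : v a ≤ 1) (hb : v b ≤ 1) : v (a - b) ≤ 1 := v.map_sub_le ha hb
lemma le1_mul {a b : K} (ha : v a ≤ 1) (hb : v b ≤ 1) : v (a * b) ≤ 1 := by
  rw [map_mul]; exact mul_le_one' ha hb
lemma le1_pow {a : K} (ha : v a ≤ 1) (n : ℕ) : v (a ^ n) ≤ 1 := by
  rw [map_pow]; exact pow_le_one' ha n
lemma le1_neg {a : K} (ha : v a ≤ 1) : v (-a) ≤ 1 := by rwa [Valuation.map_neg]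
lemma le1_one : v (1 : K) ≤ 1 := by rw [map_one]
lemma le1_zero : v (0 : K) ≤ 1 := by rw [map_zero]; exact zero_le_one
lemma le1_natCast (n : ℕ) : v (n : K) ≤ 1 := by
  induction n with
  | zero => simp
  | succ n ih => rw [Nat.cast_succ]; exact le1_add v ih (le1_one v)
lemma le1_ofNat (n : ℕ) [n.AtLeastTwo] : v (OfNat.ofNat n : K) ≤ 1 := by
  have := le1_natCast v (OfNat.ofNat n)
  rwa [Nat.cast_ofNat] at this
lemma le1_of_lt1 {a : K} (ha : v a < 1) : v a ≤ 1 := ha.le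

lemma lt1_add {a b : K} (ha : v a < 1) (hb : v b < 1) : v (a + b) < 1 := v.map_add_lt ha hb
lemma lt1_sub {a b : K} (ha : v a < 1) (hb : v b < 1) : v (a - b) < 1 := v.map_sub_lt ha hb
lemma lt1_mul_left {a b : K} (ha : v a < 1) (hb : v b ≤ 1) : v (a * b) < 1 := by
  rw [map_mul]; exact mul_lt_one_of_nonneg_of_lt_one_left zero_le ha hb
lemma lt1_mul_right {a b : K} (ha : v a ≤ 1) (hb : v b < 1) : v (a * b) < 1 := by
  rw [map_mul]; exact mul_lt_one_of_nonneg_of_lt_one_right ha zero_le hb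

lemma mul_sub_ne_zero_of_gt {x y m : K} (hx : 1 < v x) (hy : 1 < v y) (hm : v m ≤ 1) :
    x * y - m ≠ 0 := by
  intro h0
  have h1 : x * y = m := sub_eq_zero.mp h0
  have h2 : 1 < v (x * y) := by
    rw [map_mul]; exact one_lt_mul'' hx hy
  rw [h1] at h2
  exact absurd hm (not_le.mpr h2)

variable {v} {X Y : G → K} {α β : K} (h : IsXY X Y α β)
include h

lemma lemU_dbl (hα : v α ≤ 1) (hβ : v β ≤ 1) {P : G} (hP : P ≠ 0) (hP1 : 1 < v (X P))
    (hPP : P + P ≠ 0) :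
    (X (P + P))⁻¹ * (1 - α * β * (X P)⁻¹ * (X P)⁻¹) ^ 2 =
      2 * (((X P)⁻¹ + (X P)⁻¹) * (1 + α * β * (X P)⁻¹ * (X P)⁻¹)
        - 2 * (α + β) * ((X P)⁻¹ * (X P)⁻¹)) := by
  have hd := h.dbl hP hPP
  rw [h.Y_sq] at hd
  have hx0 : X P ≠ 0 := by
    intro h0; rw [h0, map_zero] at hP1; exact absurd hP1 (by simp)
  have hne : X P * X P - α * β ≠ 0 := mul_sub_ne_zero_of_gt v hP1 hP1 (le1_mul v hα hβ)
  have hr : X (P + P) ≠ 0 := by
    intro h0
    rw [h0, zero_mul] at hd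
    have : (X P ^ 2 - α * β) = 0 := by
      have := hd.symm
      exact pow_eq_zero_iff (two_ne_zero) |>.mp this
    apply hne
    rw [← this]; ring
  generalize X (P + P) = r at *
  generalize X P = x at *
  field_simp
  linear_combination (-1 : K) * hd

lemma lemU_gen (hα : v α ≤ 1) (hβ : v β ≤ 1) {P Q : G} (hP : P ≠ 0) (hP1 : 1 < v (X P))
    (hQ : Q ≠ 0) (hQ1 : 1 < v (X Q)) (hne : X Q ≠ X P) :
    ((X (Q + P))⁻¹ + (X (Q - P))⁻¹) * (1 - α * β * (X P)⁻¹ * (X Q)⁻¹) ^ 2 =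
      2 * (((X P)⁻¹ + (X Q)⁻¹) * (1 + α * β * (X P)⁻¹ * (X Q)⁻¹)
        - 2 * (α + β) * ((X P)⁻¹ * (X Q)⁻¹)) := by
  have ha := h.add_add_sub hQ hP hne
  have hm := h.add_mul_sub hQ hP hne
  have hx0 : X P ≠ 0 := by
    intro h0; rw [h0, map_zero] at hP1; exact absurd hP1 (by simp)
  have hy0 : X Q ≠ 0 := by
    intro h0; rw [h0, map_zero] at hQ1; exact absurd hQ1 (by simp)
  have hne' : X Q * X P - α * β ≠ 0 := mul_sub_ne_zero_of_gt v hQ1 hP1 (le1_mul v hα hβ)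
  have hprod : X (Q + P) * X (Q - P) * (X Q - X P) ^ 2 ≠ 0 := by
    rw [hm]; exact pow_ne_zero 2 hne'
  have hr1 : X (Q + P) ≠ 0 := by
    intro h0; apply hprod; rw [h0]; ring
  have hr2 : X (Q - P) ≠ 0 := by
    intro h0; apply hprod; rw [h0]; ring
  have hd : X Q - X P ≠ 0 := sub_ne_zero.mpr hne
  generalize X (Q + P) = r₁ at *
  generalize X (Q - P) = r₂ at *
  generalize X P = x at *
  generalize X Q = y at *
  have key : (r₁⁻¹ + r₂⁻¹) * (y * x - α * β) ^ 2 =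
      2 * ((y + x) * (α * β + y * x) - 2 * (α + β) * (y * x)) := by
    rw [← hm, ← ha]
    field_simp
    ring
  field_simp at key ⊢
  linear_combination key

lemma lemU (hα : v α ≤ 1) (hβ : v β ≤ 1) {P Q : G} (hP : P ≠ 0) (hP1 : 1 < v (X P))
    (hPP : P + P ≠ 0) (hQ : Q = 0 ∨ 1 < v (X Q)) :
    ((X (Q + P))⁻¹ + (X (Q - P))⁻¹) * (1 - α * β * (X P)⁻¹ * (X Q)⁻¹) ^ 2 =
      2 * (((X P)⁻¹ + (X Q)⁻¹) * (1 + α * β * (X P)⁻¹ * (X Q)⁻¹)
        - 2 * (α + β) * ((X P)⁻¹ * (X Q)⁻¹)) := by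
  rcases hQ with rfl | hQ1
  · simp only [zero_add, zero_sub, h.X_neg, h.X_zero, inv_zero]
    ring
  have hQ0 : Q ≠ 0 := by
    rintro rfl
    rw [h.X_zero, map_zero] at hQ1
    exact absurd hQ1 (by simp)
  by_cases hX : X Q = X P
  · rcases (h.X_eq_iff hQ0 hP).1 hX with rfl | rfl
    · rw [sub_self, h.X_zero, inv_zero, add_zero]
      exact lemU_dbl h hα hβ hP hP1 hPP
    · have e1 : -P + P = 0 := by abel
      have e2 : -P - P = -(P + P) := by abel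
      rw [e1, e2, h.X_neg, h.X_neg, h.X_zero, inv_zero, zero_add]
      exact lemU_dbl h hα hβ hP hP1 hPP
  · exact lemU_gen h hα hβ hP hP1 hQ0 hQ1 hX

omit h in
lemma add_self_ne_zero_of_prime {p : ℕ} (hp : p.Prime) (hp2 : p ≠ 2) {Q : G} (hQ : Q ≠ 0)
    (hpQ : p • Q = 0) : Q + Q ≠ 0 := by
  intro h
  have : Fact p.Prime := ⟨hp⟩
  have ho : addOrderOf Q = p := addOrderOf_eq_prime hpQ hQ
  have h2 : addOrderOf Q ∣ 2 := addOrderOf_dvd_of_nsmul_eq_zero (by rw [two_nsmul]; exact h)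
  rw [ho] at h2
  exact hp2 ((Nat.prime_dvd_prime_iff_eq hp Nat.prime_two).1 h2)

lemma X_ne_zero_of_torsion (hα0 : α ≠ 0) (hβ0 : β ≠ 0) {p : ℕ} (hp : p.Prime) (hp2 : p ≠ 2)
    {Q : G} (hQ : Q ≠ 0) (hpQ : p • Q = 0) : X Q ≠ 0 := by
  intro h0
  have hd := h.dbl hQ (add_self_ne_zero_of_prime hp hp2 hQ hpQ)
  rw [h.Y_sq, h0] at hd
  have h1 : (α * β) ^ 2 = 0 := by linear_combination -hd
  have h2 : α * β = 0 := pow_eq_zero_iff (two_ne_zero) |>.mp h1
  rcases mul_eq_zero.mp h2 with h3 | h3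
  · exact hα0 h3
  · exact hβ0 h3

omit h in
lemma claimA_step (hα : v α ≤ 1) (hβ : v β ≤ 1) {s c c' c'' n : K} (hs : v s < 1) (hs0 : s ≠ 0)
    (hn : v n ≤ 1)
    (hc : v (c - (n + 1) ^ 2) < 1) (hc' : v (c' - n ^ 2) < 1)
    (hU : (c'' * s + c' * s) * (1 - α * β * s * (c * s)) ^ 2 =
      2 * ((s + c * s) * (1 + α * β * s * (c * s)) - 2 * (α + β) * (s * (c * s)))) :
    v (c'' - (n + 2) ^ 2) < 1 := by
  have hs1 : v s ≤ 1 := hs.le
  have h1 : v (1 : K) ≤ 1 := le1_one v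
  have h2 : v (2 : K) ≤ 1 := le1_ofNat v 2
  have h4 : v (4 : K) ≤ 1 := le1_ofNat v 4
  have hcI : v c ≤ 1 := by
    have : c = (c - (n + 1) ^ 2) + (n + 1) ^ 2 := by ring
    rw [this]
    exact le1_add v hc.le (le1_pow v (le1_add v hn h1) 2)
  have hcI' : v c' ≤ 1 := by
    have : c' = (c' - n ^ 2) + n ^ 2 := by ring
    rw [this]
    exact le1_add v hc'.le (le1_pow v hn 2)
  have hU' : (c'' + c') * (1 - α * β * s * (c * s)) ^ 2 =
      2 * ((1 + c) * (1 + α * β * s * (c * s)) - 2 * (α + β) * (s * c)) := by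
    apply mul_left_cancel₀ hs0
    linear_combination hU
  have hD : v (1 - α * β * s * (c * s)) = 1 := by
    apply Valuation.map_one_sub_of_lt
    exact lt1_mul_left v (lt1_mul_right v (le1_mul v hα hβ) hs) (le1_mul v hcI hs1)
  have e : (c'' - (n + 2) ^ 2) * (1 - α * β * s * (c * s)) ^ 2 =
      2 * (c - (n + 1) ^ 2) - (c' - n ^ 2) + s * (2 * (1 + c) * (α * β) * s * c - 4 * (α + β) * c
        + (c' + (n + 2) ^ 2) * (2 * (α * β) * s * c - (α * β) ^ 2 * s ^ 3 * c ^ 2)) := by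
    linear_combination hU'
  have hv : v (c'' - (n + 2) ^ 2) = v ((c'' - (n + 2) ^ 2) * (1 - α * β * s * (c * s)) ^ 2) := by
    rw [map_mul, map_pow, hD, one_pow, mul_one]
  rw [hv, e]
  apply lt1_add v (lt1_sub v (lt1_mul_right v h2 hc) hc')
  apply lt1_mul_left v hs
  have hab : v (α * β) ≤ 1 := le1_mul v hα hβ
  have hab' : v (α + β) ≤ 1 := le1_add v hα hβ
  apply_rules [le1_add, le1_sub, le1_mul, le1_pow]

theorem claimA (hα : v α ≤ 1) (hβ : v β ≤ 1) (hα0 : α ≠ 0) (hβ0 : β ≠ 0) {p : ℕ} (hp : p.Prime)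
    (hp2 : p ≠ 2) (hvp : v (p : K) = 1) {P : G} (hP : P ≠ 0) (hpP : p • P = 0) :
    v (X P) ≤ 1 := by
  by_contra hcon
  have hP1 : 1 < v (X P) := not_le.mp hcon
  have hx0 : X P ≠ 0 := by
    intro h0; rw [h0, map_zero] at hP1; exact absurd hP1 (by simp)
  have hs : v (X P)⁻¹ < 1 := by
    rw [map_inv₀]
    exact inv_lt_one_of_one_lt₀ hP1
  have hs0 : (X P)⁻¹ ≠ 0 := inv_ne_zero hx0
  have hPP := add_self_ne_zero_of_prime hp hp2 hP hpP
  have key : ∀ k : ℕ, v ((X (k • P))⁻¹ * X P - (k : K) ^ 2) < 1 ∧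
      v ((X ((k + 1) • P))⁻¹ * X P - ((k : K) + 1) ^ 2) < 1 := by
    intro k
    induction k with
    | zero => simp [h.X_zero, hx0]
    | succ k ih =>
      refine ⟨by push_cast; exact ih.2, ?_⟩
      have hcI : v ((X ((k + 1) • P))⁻¹ * X P) ≤ 1 := by
        have : (X ((k + 1) • P))⁻¹ * X P =
            ((X ((k + 1) • P))⁻¹ * X P - ((k : K) + 1) ^ 2) + ((k : K) + 1) ^ 2 := by ring
        rw [this]
        exact le1_add v ih.2.le (le1_pow v (le1_add v (le1_natCast v k) (le1_one v)) 2)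
      have hQ : (k + 1) • P = 0 ∨ 1 < v (X ((k + 1) • P)) := by
        by_cases hQ0 : (k + 1) • P = 0
        · exact Or.inl hQ0
        · right
          have hpQ : p • ((k + 1) • P) = 0 := by
            rw [smul_comm, hpP, smul_zero]
          have hXQ := X_ne_zero_of_torsion h hα0 hβ0 hp hp2 hQ0 hpQ
          have h1 : v (X ((k + 1) • P))⁻¹ < 1 := by
            have : (X ((k + 1) • P))⁻¹ = ((X ((k + 1) • P))⁻¹ * X P) * (X P)⁻¹ := by
              rw [mul_inv_cancel_right₀ hx0]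
            rw [this]
            exact lt1_mul_right v hcI hs
          rw [map_inv₀] at h1
          have hv0 : 0 < v (X ((k + 1) • P)) := by
            rw [zero_lt_iff]; exact (Valuation.ne_zero_iff v).mpr hXQ
          exact (inv_lt_one₀ hv0).mp h1
      have U := lemU h hα hβ hP hP1 hPP hQ
      have e1 : (k + 1) • P + P = (k + 1 + 1) • P := (succ_nsmul P (k + 1)).symm
      have e2 : (k + 1) • P - P = k • P := by rw [succ_nsmul]; abel
      rw [e1, e2] at U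
      have := claimA_step (v := v) (α := α) (β := β) hα hβ (s := (X P)⁻¹)
        (c := (X ((k + 1) • P))⁻¹ * X P) (c' := (X (k • P))⁻¹ * X P)
        (c'' := (X ((k + 1 + 1) • P))⁻¹ * X P) (n := (k : K)) hs hs0 (le1_natCast v k) ih.2 ih.1
        (by simp only [mul_inv_cancel_right₀ hx0]; exact U)
      push_cast
      have e3 : (k : K) + 1 + 1 = (k : K) + 2 := by ring
      rw [e3]
      exact this
  have := (key p).1
  rw [hpP, h.X_zero, inv_zero, zero_mul, zero_sub, Valuation.map_neg, map_pow, hvp, one_pow] at this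
  exact lt_irrefl _ this

end val

end Fermat.Agent.S05
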