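import Fermat.Agent.S05.ValLemmas

set_option autoImplicit false
set_option linter.unusedSectionVars false
set_option linter.unusedVariables false

namespace Fermat.Agent.S05

variable {G : Type*} [AddCommGroup G] {K : Type*} [Field K]
  {Γ₀ : Type*} [LinearOrderedCommGroupWithZero Γ₀]

lemma eq_one_of_mul_eq_one_left' {a b : Γ₀} (ha : a ≤ 1) (hb : b ≤ 1) (hab : a * b = 1) :
    a = 1 := by
  apply le_antisymm ha
  by_contra hlt
  push Not at hlt
  have : a * b < 1 := mul_lt_one_of_nonneg_of_lt_one_left zero_le hlt hb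
  exact this.ne hab

variable {v : Valuation K Γ₀} {X Y : G → K} {α β : K} (h : IsXY X Y α β)
  (hα : v α < 1) (hα0 : α ≠ 0) (hβ : v β = 1) (h2 : v (2 : K) = 1)
  {p : ℕ} (hp : p.Prime) (hp2 : p ≠ 2) (hvp : v (p : K) = 1)

include h hα hα0 hβ h2 hp hp2 hvp

lemma intX {Q : G} (hQ : Q ≠ 0) (hpQ : p • Q = 0) : v (X Q) ≤ 1 := by
  have hβ0 : β ≠ 0 := by
    intro h0; rw [h0, map_zero] at hβ; exact zero_ne_one hβ
  exact claimA h hα.le hβ.le hα0 hβ0 hp hp2 hvp hQ hpQ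

lemma unit_step {P Q : G} (hP : P ≠ 0) (hpP : p • P = 0) (hQ : Q ≠ 0) (hpQ : p • Q = 0)
    (hXP : v (X P) = 1) (hXQ : v (X Q) = 1) (hsum : Q + P ≠ 0) : v (X (Q + P)) = 1 := by
  have hI : ∀ {R : G}, R ≠ 0 → p • R = 0 → v (X R) ≤ 1 :=
    fun hR hpR => intX h hα hα0 hβ h2 hp hp2 hvp hR hpR
  have hpS : p • (Q + P) = 0 := by rw [smul_add, hpQ, hpP, add_zero]
  have hm1 : v (α * β) < 1 := by rw [v_mul_unit hβ]; exact hα
  by_cases hX : X Q = X P
  · rcases (h.X_eq_iff hQ hP).1 hX with rfl | rfl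
    · have hd := h.dbl hQ hsum
      have h3 : v (X Q ^ 2 - α * β) = 1 := by
        have : v (X Q ^ 2) = 1 := by rw [map_pow, hXQ, one_pow]
        rw [← this]
        apply Valuation.map_sub_eq_of_lt_left
        rw [this]; exact hm1
      have h4 := congrArg v hd
      rw [map_mul, map_pow (v) (X Q ^ 2 - α * β), h3, one_pow] at h4
      have h5 : v (Y Q ^ 2) ≤ 1 := by
        rw [h.Y_sq]
        have h4' : v (4 : K) ≤ 1 := le1_ofNat v 4
        have := hXQ.le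
        have := hα.le
        have := hβ.le
        apply_rules [le1_add, le1_sub, le1_mul, le1_pow]
      exact eq_one_of_mul_eq_one_left' (hI hsum hpS) h5 h4
    · exact absurd (by abel) hsum
  · have hm := h.add_mul_sub hQ hP hX
    have hsub : Q - P ≠ 0 := by
      intro h0; apply hX; rw [sub_eq_zero.mp h0]
    have hpD : p • (Q - P) = 0 := by rw [smul_sub, hpQ, hpP, sub_zero]
    have h3 : v (X Q * X P - α * β) = 1 := by
      have : v (X Q * X P) = 1 := by rw [map_mul, hXQ, hXP, one_mul]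
      rw [← this]
      apply Valuation.map_sub_eq_of_lt_left
      rw [this]; exact hm1
    have h4 := congrArg v hm
    rw [map_pow (v) (X Q * X P - α * β), h3, one_pow, mul_assoc, map_mul] at h4
    have h5 : v (X (Q - P) * (X Q - X P) ^ 2) ≤ 1 :=
      le1_mul v (hI hsub hpD) (le1_pow v (le1_sub v hXQ.le hXP.le) 2)
    exact eq_one_of_mul_eq_one_left' (hI hsum hpS) h5 h4

lemma E0 {P : G} (hP : P ≠ 0) (hpP : p • P = 0) (hXP : v (X P) = 1) (k : ℕ) :
    k • P ≠ 0 → v (X (k • P)) = 1 := by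
  induction k with
  | zero => intro h0; exact absurd (zero_smul ℕ P) h0
  | succ k ih =>
    intro hk
    by_cases hk0 : k • P = 0
    · rw [succ_nsmul, hk0, zero_add]; exact hXP
    · rw [succ_nsmul] at hk ⊢
      have hpQ : p • (k • P) = 0 := by rw [smul_comm, hpP, smul_zero]
      exact unit_step h hα hα0 hβ h2 hp hp2 hvp hP hpP hk0 hpQ hXP (ih hk0) hk

omit h hα hα0 hβ h2 hp2 hvp in
lemma exists_nsmul_inverse {P : G} (hpP : p • P = 0) {k : ℕ} (hk : k • P ≠ 0) :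
    ∃ m : ℕ, m • (k • P) = P := by
  have hndvd : ¬ p ∣ k := by
    rintro ⟨t, rfl⟩
    apply hk
    rw [mul_smul, smul_comm, hpP, smul_zero]
  have hcop : Nat.Coprime k p := ((Nat.Prime.coprime_iff_not_dvd hp).mpr hndvd).symm
  obtain ⟨m, -, hm⟩ := Nat.exists_mul_mod_eq_one_of_coprime hcop hp.one_lt
  refine ⟨m, ?_⟩
  rw [← mul_smul, mul_comm, ← Nat.div_add_mod (k * m) p, hm, add_smul, mul_smul, smul_comm, hpP,
    one_smul, smul_zero, zero_add]

lemma E0' {P : G} (hP : P ≠ 0) (hpP : p • P = 0) (hXP : v (X P) < 1) {k : ℕ}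
    (hk : k • P ≠ 0) : v (X (k • P)) < 1 := by
  have hpQ : p • (k • P) = 0 := by rw [smul_comm, hpP, smul_zero]
  have h1 := intX h hα hα0 hβ h2 hp hp2 hvp hk hpQ
  rcases lt_or_eq_of_le h1 with h3 | h3
  · exact h3
  · exfalso
    obtain ⟨m, hm⟩ := exists_nsmul_inverse hp hpP hk
    have := E0 h hα hα0 hβ h2 hp hp2 hvp hk hpQ h3 m (by rw [hm]; exact hP)
    rw [hm] at this
    exact hXP.ne this

lemma claimN {P : G} (hP : P ≠ 0) (hpP : p • P = 0) (hXP : v (X P) < 1) : v α < v (X P) := by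
  by_contra hcon
  push Not at hcon
  have hν0 : 0 < v α := zero_lt_iff.mpr ((Valuation.ne_zero_iff v).mpr hα0)
  have hPP := add_self_ne_zero_of_prime hp hp2 hP hpP
  have h3 : v (X (P + P)) < 1 := by
    have := E0' h hα hα0 hβ h2 hp hp2 hvp hP hpP hXP (k := 2) (by rw [two_nsmul]; exact hPP)
    rwa [two_nsmul] at this
  have hd := h.dbl hP hPP
  rw [h.Y_sq] at hd
  have h4 : v (4 : K) = 1 := by
    have : (4 : K) = 2 * 2 := by norm_num
    rw [this, map_mul, h2, one_mul]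
  have h5 : v (X P ^ 2 - α * β) = v α := by
    rw [← v_mul_unit (α := α) hβ]
    apply Valuation.map_sub_eq_of_lt_right
    rw [v_mul_unit hβ, map_pow, sq]
    calc v (X P) * v (X P) ≤ v α * v α := by gcongr
      _ < 1 * v α := by gcongr
      _ = v α := one_mul _
  have h6 : v (X P - α) ≤ v α := Valuation.map_sub_le v hcon le_rfl
  have h7 : v (X P - β) = 1 := by
    rw [← hβ]; exact Valuation.map_sub_eq_of_lt_right v (by rw [hβ]; exact hXP)
  have h8 := congrArg v hd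
  rw [map_mul, map_mul, map_mul, map_mul, map_pow, h4, h5, h7, one_mul, mul_one] at h8
  have h9 : v (X (P + P)) * (v (X P) * v (X P - α)) < v α ^ 2 := by
    calc v (X (P + P)) * (v (X P) * v (X P - α)) ≤ v (X (P + P)) * (v α * v α) := by gcongr
      _ < 1 * (v α * v α) := by
          have : 0 < v α * v α := mul_pos hν0 hν0
          gcongr
      _ = v α ^ 2 := by rw [one_mul, sq]
  exact h9.ne h8

lemma node_of_mem {P : G} (hP : P ≠ 0) (hpP : p • P = 0) (hXP : v (X P) < 1) {Q : G}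
    (hQ : Q ∈ AddSubgroup.zmultiples P) (hQ0 : Q ≠ 0) :
    p • Q = 0 ∧ v (X Q) < 1 ∧ v α < v (X Q) := by
  obtain ⟨k, rfl⟩ := AddSubgroup.mem_zmultiples_iff.mp hQ
  have hpQ : p • (k • P) = 0 := by rw [smul_comm, hpP, smul_zero]
  have hlt : v (X (k • P)) < 1 := by
    rcases Int.eq_nat_or_neg k with ⟨n, rfl | rfl⟩
    · rw [natCast_zsmul] at hQ0 ⊢
      exact E0' h hα hα0 hβ h2 hp hp2 hvp hP hpP hXP hQ0
    · rw [neg_smul, natCast_zsmul] at hQ0 ⊢
      rw [h.X_neg]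
      exact E0' h hα hα0 hβ h2 hp hp2 hvp hP hpP hXP (neg_ne_zero.mp hQ0)
  exact ⟨hpQ, hlt, claimN h hα hα0 hβ h2 hp hp2 hvp hQ0 hpQ hlt⟩

lemma inj_of_mem {P : G} (hP : P ≠ 0) (hpP : p • P = 0) (hXP : v (X P) < 1) {Q R : G}
    (hQ : Q ∈ AddSubgroup.zmultiples P) (hR : R ∈ AddSubgroup.zmultiples P)
    (hQ0 : Q ≠ 0) (hR0 : R ≠ 0) (hX : X Q ≠ X R) : v (X Q) ≠ v (X R) := by
  have hN : ∀ {S : G}, S ∈ AddSubgroup.zmultiples P → S ≠ 0 →
      p • S = 0 ∧ v (X S) < 1 ∧ v α < v (X S) :=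
    fun hS hS0 => node_of_mem h hα hα0 hβ h2 hp hp2 hvp hP hpP hXP hS hS0
  have hs0 : Q + R ≠ 0 := by
    intro h0; apply hX
    rw [eq_neg_of_add_eq_zero_left h0, h.X_neg]
  have hd0 : Q - R ≠ 0 := by
    intro h0; apply hX; rw [sub_eq_zero.mp h0]
  obtain ⟨-, hQ1, hQ2⟩ := hN hQ hQ0
  obtain ⟨-, hR1, hR2⟩ := hN hR hR0
  obtain ⟨-, hs1, -⟩ := hN (add_mem hQ hR) hs0
  obtain ⟨-, hd1, -⟩ := hN (sub_mem hQ hR) hd0
  exact inj_aux hα hβ h2 hQ2 hQ1 hR2 hR1 hs1 hd1 (h.add_add_sub hQ0 hR0 hX)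

omit h hα hα0 hβ h2 hp2 hvp in
lemma nsmul_ne_zero_of_lt {P : G} (hP : P ≠ 0) (hpP : p • P = 0) {j : ℕ} (h0 : 0 < j)
    (hj : j < p) : j • P ≠ 0 := by
  intro hz
  have : Fact p.Prime := ⟨hp⟩
  have ho : addOrderOf P = p := addOrderOf_eq_prime hpP hP
  have h2 : addOrderOf P ∣ j := addOrderOf_dvd_of_nsmul_eq_zero hz
  rw [ho] at h2
  exact absurd (Nat.le_of_dvd h0 h2) (not_le.mpr hj)

lemma relStep {P : G} (hP : P ≠ 0) (hpP : p • P = 0) (hXP : v (X P) < 1) {k : ℕ}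
    (hk : k + 3 < p) (S1 : Rel (v α) (v (X ((k + 1) • P))) (v (X P) ^ (k + 1)))
    (S2 : Rel (v α) (v (X ((k + 2) • P))) (v (X P) ^ (k + 2))) :
    Rel (v α) (v (X ((k + 3) • P))) (v (X P) ^ (k + 3)) := by
  have hN : ∀ {S : G}, S ∈ AddSubgroup.zmultiples P → S ≠ 0 →
      p • S = 0 ∧ v (X S) < 1 ∧ v α < v (X S) :=
    fun hS hS0 => node_of_mem h hα hα0 hβ h2 hp hp2 hvp hP hpP hXP hS hS0
  have hmem : ∀ j : ℕ, j • P ∈ AddSubgroup.zmultiples P :=
    fun j => AddSubgroup.nsmul_mem_zmultiples P j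
  have hP' : P ∈ AddSubgroup.zmultiples P := AddSubgroup.mem_zmultiples P
  have hν0 : v α ≠ 0 := (Valuation.ne_zero_iff v).mpr hα0
  have h10 : (k + 1) • P ≠ 0 := nsmul_ne_zero_of_lt hp hP hpP (by omega) (by omega)
  have h20 : (k + 2) • P ≠ 0 := nsmul_ne_zero_of_lt hp hP hpP (by omega) (by omega)
  have h30 : (k + 3) • P ≠ 0 := nsmul_ne_zero_of_lt hp hP hpP (by omega) (by omega)
  have e3 : (k + 2) • P + P = (k + 3) • P := (succ_nsmul P (k + 2)).symm
  have e1 : (k + 2) • P - P = (k + 1) • P := by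
    rw [show k + 2 = (k + 1) + 1 from rfl, succ_nsmul]; abel
  have hX21 : X ((k + 2) • P) ≠ X P := by
    intro hX
    rcases (h.X_eq_iff h20 hP).1 hX with h' | h'
    · apply h10; rw [← e1, h', sub_self]
    · apply h30; rw [← e3, h', neg_add_cancel]
  have hX31 : X ((k + 3) • P) ≠ X ((k + 1) • P) := by
    intro hX
    rcases (h.X_eq_iff h30 h10).1 hX with h' | h'
    · apply add_self_ne_zero_of_prime hp hp2 hP hpP
      have : (k + 3) • P = (k + 1) • P + (P + P) := by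
        rw [← e3, ← e1]; abel
      rw [this] at h'
      exact left_eq_add.mp h'.symm
    · apply add_self_ne_zero_of_prime hp hp2 h20 (hN (hmem _) h20).1
      have : (k + 2) • P + (k + 2) • P = (k + 3) • P + (k + 1) • P := by
        rw [← e3, ← e1]; abel
      rw [this, h', neg_add_cancel]
  obtain ⟨-, hP1, hP2⟩ := hN hP' hP
  obtain ⟨-, h11, h12⟩ := hN (hmem _) h10
  obtain ⟨-, h21, h22⟩ := hN (hmem _) h20
  obtain ⟨-, h31, h32⟩ := hN (hmem _) h30
  have hγ0 : v (X P) ≠ 0 := (lt_of_le_of_lt zero_le hP2).ne'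
  have hxy := inj_of_mem h hα hα0 hβ h2 hp hp2 hvp hP hpP hXP (hmem _) hP' h20 hP hX21
  have hr := inj_of_mem h hα hα0 hβ h2 hp hp2 hvp hP hpP hXP (hmem _) (hmem _) h30 h10 hX31
  have hadd := h.add_add_sub h20 hP hX21
  have hmul := h.add_mul_sub h20 hP hX21
  rw [e3, e1] at hadd hmul
  have R := lemR hα hβ h2 h22 h21 hP2 hP1 h32 h12 hxy hr hadd hmul
  have Sh := Rel.shift (ν := v α) hγ0 (k := k + 1) S2
  have S1' := S1.symm hν0 (pow_ne_zero _ hγ0)
  rcases R with ⟨R1, R2⟩ | ⟨R2, R1⟩ <;> rcases Sh with ⟨T1, T2⟩ | ⟨T1, T2⟩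
  · exact ((((R1.trans hν0 T2).trans hν0 S1').trans hν0 R2).trans hν0 T1)
  · exact R1.trans hν0 T2
  · exact R1.trans hν0 T1
  · exact ((((R1.trans hν0 T1).trans hν0 S1').trans hν0 R2).trans hν0 T2)

theorem claimB {P : G} (hP : P ≠ 0) (hpP : p • P = 0) (hXP : v (X P) < 1) :
    ∃ n : ℤ, v (X P) ^ p = v α ^ (2 * n) := by
  have hN : ∀ {S : G}, S ∈ AddSubgroup.zmultiples P → S ≠ 0 →
      p • S = 0 ∧ v (X S) < 1 ∧ v α < v (X S) :=
    fun hS hS0 => node_of_mem h hα hα0 hβ h2 hp hp2 hvp hP hpP hXP hS hS0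
  have hmem : ∀ j : ℕ, j • P ∈ AddSubgroup.zmultiples P :=
    fun j => AddSubgroup.nsmul_mem_zmultiples P j
  have hP' : P ∈ AddSubgroup.zmultiples P := AddSubgroup.mem_zmultiples P
  have hν0 : v α ≠ 0 := (Valuation.ne_zero_iff v).mpr hα0
  obtain ⟨-, hP1, hP2⟩ := hN hP' hP
  have hγ0 : v (X P) ≠ 0 := (lt_of_le_of_lt zero_le hP2).ne'
  have key : ∀ k : ℕ, (k + 1 < p → Rel (v α) (v (X ((k + 1) • P))) (v (X P) ^ (k + 1))) ∧
      (k + 2 < p → Rel (v α) (v (X ((k + 2) • P))) (v (X P) ^ (k + 2))) := by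
    intro k
    induction k with
    | zero =>
      refine ⟨fun _ => ?_, fun h2p => ?_⟩
      · simp only [zero_add, one_smul, pow_one]; exact Rel.refl _ _
      · simp only [zero_add]
        have h20 : 2 • P ≠ 0 := nsmul_ne_zero_of_lt hp hP hpP (by omega) h2p
        obtain ⟨-, h21, h22⟩ := hN (hmem _) h20
        have hd := h.dbl hP (by rw [← two_nsmul]; exact h20)
        rw [h.Y_sq, ← two_nsmul] at hd
        exact lemR_dbl hα hβ h2 hP2 hP1 h22 hd
    | succ k ih =>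
      refine ⟨fun hk => ih.2 hk, fun hk => ?_⟩
      exact relStep h hα hα0 hβ h2 hp hp2 hvp hP hpP hXP hk (ih.1 (by omega)) (ih.2 (by omega))
  have hp3 : 3 ≤ p := by
    have := hp.two_le
    omega
  obtain ⟨q, rfl⟩ : ∃ q, p = q + 3 := ⟨p - 3, by omega⟩
  have S2 := (key q).2 (by omega)
  have S1 := (key q).1 (by omega)
  have e : (q + 2) • P = -P := by
    have : (q + 2) • P + P = 0 := by rw [← succ_nsmul]; exact hpP
    exact eq_neg_of_add_eq_zero_left this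
  rw [e, h.X_neg] at S2
  obtain ⟨n, S2 | S2⟩ := S2
  · exfalso
    have h10 : (q + 1) • P ≠ 0 := nsmul_ne_zero_of_lt hp hP hpP (by omega) (by omega)
    obtain ⟨-, h11, h12⟩ := hN (hmem _) h10
    have h3 : v (X P) ^ (q + 1) = v α ^ (2 * (-n)) := by
      have h4 : v (X P) * 1 = v (X P) * (v (X P) ^ (q + 1) * v α ^ (2 * n)) := by
        rw [mul_one, ← mul_assoc, ← pow_succ']
        exact S2
      have h5 := mul_left_cancel₀ hγ0 h4
      have h6 : 2 * (-n) = -(2 * n) := by ring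
      rw [h6, zpow_neg]
      exact eq_inv_of_mul_eq_one_left h5.symm
    rw [h3] at S1
    obtain ⟨m, S1 | S1⟩ := S1
    · rw [← zpow_add₀ hν0, show 2 * (-n) + 2 * m = 2 * (m - n) by ring] at S1
      rw [S1] at h11 h12
      exact not_between_zpow hν0 hα _ h12 h11
    · rw [← zpow_neg, ← zpow_add₀ hν0, show -(2 * (-n)) + 2 * m = 2 * (m + n) by ring] at S1
      rw [S1] at h11 h12
      exact not_between_zpow hν0 hα _ h12 h11
  · refine ⟨n, ?_⟩
    have h3 : v (X P) ^ (q + 2) ≠ 0 := pow_ne_zero _ hγ0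
    rw [pow_succ, mul_comm]
    nth_rewrite 1 [S2]
    field_simp

end Fermat.Agent.S05
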