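import Mathlib

set_option autoImplicit false
set_option linter.unusedSectionVars false

namespace Fermat.Agent.S05

variable {Γ₀ : Type*} [LinearOrderedCommGroupWithZero Γ₀]

/-- `a` equals `b` or `b⁻¹` up to an even power of `ν`. -/
def Rel (ν a b : Γ₀) : Prop := ∃ n : ℤ, a = b * ν ^ (2 * n) ∨ a = b⁻¹ * ν ^ (2 * n)

lemma Rel.refl (ν a : Γ₀) : Rel ν a a := ⟨0, Or.inl (by simp)⟩

lemma Rel.of_eq {ν a b : Γ₀} (h : a = b) : Rel ν a b := h ▸ Rel.refl ν a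

lemma Rel.symm {ν a b : Γ₀} (hν : ν ≠ 0) (hb : b ≠ 0) (h : Rel ν a b) : Rel ν b a := by
  obtain ⟨n, h | h⟩ := h
  · refine ⟨-n, Or.inl ?_⟩
    subst h
    rw [mul_assoc, ← zpow_add₀ hν]
    simp
  · refine ⟨n, Or.inr ?_⟩
    subst h
    field_simp

lemma Rel.trans {ν a b c : Γ₀} (hν : ν ≠ 0) (h : Rel ν a b) (h' : Rel ν b c) :
    Rel ν a c := by
  obtain ⟨n, h | h⟩ := h <;> obtain ⟨m, h' | h'⟩ := h'
  · refine ⟨m + n, Or.inl ?_⟩
    subst h h'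
    rw [mul_assoc, ← zpow_add₀ hν]
    congr 2; ring
  · refine ⟨m + n, Or.inr ?_⟩
    subst h h'
    rw [mul_assoc, ← zpow_add₀ hν]
    congr 2; ring
  · refine ⟨n - m, Or.inr ?_⟩
    subst h h'
    rw [mul_inv, mul_assoc, ← zpow_neg, ← zpow_add₀ hν]
    congr 2; ring
  · refine ⟨n - m, Or.inl ?_⟩
    subst h h'
    rw [mul_inv, inv_inv, mul_assoc, ← zpow_neg, ← zpow_add₀ hν]
    congr 2; ring

lemma Rel.inv_right {ν a b : Γ₀} (h : Rel ν a b) : Rel ν a b⁻¹ := by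
  obtain ⟨n, h | h⟩ := h
  · exact ⟨n, Or.inr (by rw [inv_inv]; exact h)⟩
  · exact ⟨n, Or.inl h⟩

/-- shifting lemma -/
lemma Rel.shift {ν g γ : Γ₀} (hγ : γ ≠ 0) {k : ℕ} (h : Rel ν g (γ ^ (k + 1))) :
    (Rel ν (g * γ) (γ ^ (k + 2)) ∧ Rel ν (g / γ) (γ ^ k)) ∨
    (Rel ν (g * γ) (γ ^ k) ∧ Rel ν (g / γ) (γ ^ (k + 2))) := by
  obtain ⟨n, h | h⟩ := h
  · left
    refine ⟨⟨n, Or.inl ?_⟩, ⟨n, Or.inl ?_⟩⟩
    · subst h; rw [pow_succ γ (k + 1)]; ac_rfl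
    · subst h; field_simp; rw [pow_succ]; ac_rfl
  · right
    refine ⟨⟨n, Or.inr ?_⟩, ⟨n, Or.inr ?_⟩⟩
    · subst h; field_simp; rw [pow_succ]; ac_rfl
    · subst h; field_simp; rw [pow_succ γ (k + 1)]; ac_rfl

/-- an even power of `ν < 1` is never strictly between `ν` and `1`. -/
lemma not_between_zpow {ν : Γ₀} (hν0 : ν ≠ 0) (hν1 : ν < 1) (j : ℤ) (h1 : ν < ν ^ (2 * j))
    (h2 : ν ^ (2 * j) < 1) : False := by
  have hpos : 0 < ν := zero_lt_iff.mpr hν0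
  rcases le_or_gt j 0 with hj | hj
  · have : 1 ≤ ν ^ (2 * j) := by
      have h3 : ν ^ (2 * j) = (ν ^ (-(2 * j)))⁻¹ := by rw [zpow_neg, inv_inv]
      rw [h3]
      have h4 : ν ^ (-(2 * j)) ≤ 1 := by
        obtain ⟨m, hm⟩ := Int.eq_ofNat_of_zero_le (show 0 ≤ -(2 * j) by omega)
        rw [hm, zpow_natCast]
        exact pow_le_one' hν1.le m
      exact (one_le_inv₀ (zpow_pos hpos _)).mpr h4
    exact absurd h2 (not_lt.mpr this)
  · obtain ⟨m, hm⟩ := Int.eq_ofNat_of_zero_le (show 0 ≤ 2 * j - 1 by omega)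
    have h3 : ν ^ (2 * j) = ν * ν ^ m := by
      have : 2 * j = 1 + (m : ℤ) := by omega
      rw [this, zpow_add₀ hν0, zpow_one, zpow_natCast]
    rw [h3] at h1
    have h4 : ν * ν ^ m ≤ ν := by
      calc ν * ν ^ m ≤ ν * 1 := by gcongr; exact pow_le_one' hν1.le m
        _ = ν := mul_one ν
    exact absurd h1 (not_lt.mpr h4)

end Fermat.Agent.S05
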