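import Mathlib

set_option autoImplicit false

namespace Fermat.Agent.S05

section Tent

variable {Γ : Type*} [AddCommGroup Γ] [LinearOrder Γ] [IsOrderedAddMonoid Γ]

theorem eq_zero_of_mem_zmultiples {N x : Γ} (hN : 0 < N) (hx : x ∈ AddSubgroup.zmultiples N)
    (h1 : -N < x) (h2 : x < N) : x = 0 := by
  obtain ⟨m, rfl⟩ := AddSubgroup.mem_zmultiples_iff.mp hx
  rcases lt_trichotomy m 0 with hm | hm | hm
  · exfalso
    have h : m • N ≤ (-1 : ℤ) • N := zsmul_le_zsmul_left hN.le (by omega)
    rw [neg_smul, one_smul] at h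
    exact absurd h1 (not_lt.mpr h)
  · rw [hm, zero_smul]
  · exfalso
    have h : (1 : ℤ) • N ≤ m • N := zsmul_le_zsmul_left hN.le (by omega)
    rw [one_smul] at h
    exact absurd h2 (not_lt.mpr h)

theorem tent_step {n t a b c d e T : Γ} (hn : 0 < n)
    (ht : 0 < t ∧ t < n) (ha : 0 < a ∧ a < n) (hb : 0 < b ∧ b < n) (hc : 0 < c ∧ c < n)
    (hrec : c + b + 2 • d = 2 • e)
    (hd1 : min a t ≤ d) (hd2 : a ≠ t → d = min a t)
    (he1 : min (a + t) n ≤ e) (he2 : a + t ≠ n → e = min (a + t) n)
    (hA : a - T ∈ AddSubgroup.zmultiples (2 • n) ∨ a + T ∈ AddSubgroup.zmultiples (2 • n))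
    (hB : b - (T - t) ∈ AddSubgroup.zmultiples (2 • n) ∨
      b + (T - t) ∈ AddSubgroup.zmultiples (2 • n)) :
    c - (T + t) ∈ AddSubgroup.zmultiples (2 • n) ∨ c + (T + t) ∈ AddSubgroup.zmultiples (2 • n) := by
  have hN : (0 : Γ) < 2 • n := by grind
  have hNmem : 2 • n ∈ AddSubgroup.zmultiples (2 • n) := AddSubgroup.mem_zmultiples _
  obtain ⟨ht0, htn⟩ := ht
  obtain ⟨ha0, han⟩ := ha
  obtain ⟨hb0, hbn⟩ := hb
  obtain ⟨hc0, hcn⟩ := hc
  rcases hA with hA | hA
  · -- a ≡ T
    have hb' : b = a - t ∨ b = t - a := by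
      rcases hB with hB | hB
      · left
        have h : b - (a - t) ∈ AddSubgroup.zmultiples (2 • n) := by
          have := AddSubgroup.sub_mem _ hB hA
          rwa [show b - (T - t) - (a - T) = b - (a - t) by abel] at this
        have := eq_zero_of_mem_zmultiples hN h (by grind) (by grind)
        grind
      · right
        have h : b + (a - t) ∈ AddSubgroup.zmultiples (2 • n) := by
          have := AddSubgroup.add_mem _ hB hA
          rwa [show b + (T - t) + (a - T) = b + (a - t) by abel] at this
        have := eq_zero_of_mem_zmultiples hN h (by grind) (by grind)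
        grind
    have hat : a ≠ t := by grind
    have hd := hd2 hat
    have hatn : a + t ≠ n := by
      intro h
      grind
    have he := he2 hatn
    have hc' : c = a + t ∨ c = 2 • n - a - t := by grind
    rcases hc' with hc' | hc'
    · left
      rw [hc', show a + t - (T + t) = a - T by abel]
      exact hA
    · right
      rw [hc', show 2 • n - a - t + (T + t) = 2 • n - (a - T) by abel]
      exact AddSubgroup.sub_mem _ hNmem hA
  · -- a ≡ -T
    have hb' : b = 2 • n - a - t ∨ b = a + t := by
      rcases hB with hB | hB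
      · left
        have h : b + (a + t) - 2 • n ∈ AddSubgroup.zmultiples (2 • n) := by
          have := AddSubgroup.sub_mem _ (AddSubgroup.add_mem _ hB hA) hNmem
          rwa [show b - (T - t) + (a + T) - 2 • n = b + (a + t) - 2 • n by abel] at this
        have := eq_zero_of_mem_zmultiples hN h (by grind) (by grind)
        grind
      · right
        have h : b - (a + t) ∈ AddSubgroup.zmultiples (2 • n) := by
          have := AddSubgroup.sub_mem _ hB hA
          rwa [show b + (T - t) - (a + T) = b - (a + t) by abel] at this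
        have := eq_zero_of_mem_zmultiples hN h (by grind) (by grind)
        grind
    have hatn : a + t ≠ n := by grind
    have he := he2 hatn
    have hat : a ≠ t := by
      intro h
      grind
    have hd := hd2 hat
    have hc' : c = a - t ∨ c = t - a := by grind
    rcases hc' with hc' | hc'
    · right
      rw [hc', show a - t + (T + t) = a + T by abel]
      exact hA
    · left
      rw [hc', show t - a - (T + t) = -(a + T) by abel]
      exact AddSubgroup.neg_mem _ hA

theorem tent_main {n : Γ} (p : ℕ) (hp : 5 ≤ p) (w d e : ℕ → Γ) (hn : 0 < n)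
    (hw : ∀ k, 1 ≤ k → k ≤ p - 1 → 0 < w k ∧ w k < n)
    (hrec : ∀ k, 2 ≤ k → k ≤ p - 2 → w (k + 1) + w (k - 1) + 2 • d k = 2 • e k)
    (hd1 : ∀ k, 2 ≤ k → k ≤ p - 2 → min (w k) (w 1) ≤ d k)
    (hd2 : ∀ k, 2 ≤ k → k ≤ p - 2 → w k ≠ w 1 → d k = min (w k) (w 1))
    (he1 : ∀ k, 2 ≤ k → k ≤ p - 2 → min (w k + w 1) n ≤ e k)
    (he2 : ∀ k, 2 ≤ k → k ≤ p - 2 → w k + w 1 ≠ n → e k = min (w k + w 1) n)
    (hdup : w 2 + 2 • w 1 = 2 • e 1) (hdup1 : min (2 • w 1) n ≤ e 1)
    (hdup2 : 2 • w 1 ≠ n → e 1 = min (2 • w 1) n)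
    (hsymm : w (p - 1) = w 1) :
    p • w 1 ∈ AddSubgroup.zmultiples (2 • n) := by
  have hN : (0 : Γ) < 2 • n := by grind
  have hNmem : 2 • n ∈ AddSubgroup.zmultiples (2 • n) := AddSubgroup.mem_zmultiples _
  set t := w 1 with ht
  have key : ∀ k, 1 ≤ k → k + 1 ≤ p - 1 →
      (w k - k • t ∈ AddSubgroup.zmultiples (2 • n) ∨ w k + k • t ∈ AddSubgroup.zmultiples (2 • n)) ∧
      (w (k + 1) - (k + 1) • t ∈ AddSubgroup.zmultiples (2 • n) ∨
        w (k + 1) + (k + 1) • t ∈ AddSubgroup.zmultiples (2 • n)) := by
    intro k hk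
    induction k, hk using Nat.le_induction with
    | base =>
      intro _
      refine ⟨Or.inl ?_, ?_⟩
      · rw [one_smul, ← ht, sub_self]; exact AddSubgroup.zero_mem _
      · have h1 := hw 1 le_rfl (by omega)
        have h2 := hw 2 (by omega) (by omega)
        rw [← ht] at h1
        have hne : 2 • t ≠ n := by
          intro h
          grind
        have he := hdup2 hne
        have hc : w 2 = 2 • t ∨ w 2 = 2 • n - 2 • t := by grind
        rcases hc with hc | hc
        · left
          show w 2 - 2 • t ∈ _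
          rw [hc, sub_self]; exact AddSubgroup.zero_mem _
        · right
          show w 2 + 2 • t ∈ _
          rw [hc, sub_add_cancel]; exact hNmem
    | succ k hk ih =>
      intro hk2
      obtain ⟨ih1, ih2⟩ := ih (by omega)
      refine ⟨ih2, ?_⟩
      have hs := tent_step (T := (k + 1) • t) hn (hw 1 le_rfl (by omega)) (hw (k + 1) (by omega) (by omega))
        (hw k hk (by omega)) (hw (k + 1 + 1) (by omega) (by omega))
        (hrec (k + 1) (by omega) (by omega)) (hd1 (k + 1) (by omega) (by omega))
        (hd2 (k + 1) (by omega) (by omega)) (he1 (k + 1) (by omega) (by omega))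
        (he2 (k + 1) (by omega) (by omega)) ih2
        (by
          have : (k + 1) • t - t = k • t := by rw [add_smul, one_smul, add_sub_cancel_right]
          rw [this]; exact ih1)
      have : (k + 1) • t + t = (k + 1 + 1) • t := by rw [add_smul (k + 1) 1 t, one_smul]
      rw [this] at hs
      exact hs
  obtain ⟨h1, h2⟩ := key (p - 2) (by omega) (by omega)
  have hp1 : p - 2 + 1 = p - 1 := by omega
  rw [hp1, hsymm] at h2
  rcases h2 with h2 | h2
  · exfalso
    have h3 : (p - 2) • t ∈ AddSubgroup.zmultiples (2 • n) := by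
      have := AddSubgroup.neg_mem _ h2
      have e1 : -(t - (p - 1) • t) = (p - 2) • t := by
        have : p - 1 = (p - 2) + 1 := by omega
        rw [this, add_smul, one_smul]; abel
      rwa [e1] at this
    have h4 : w (p - 2) ∈ AddSubgroup.zmultiples (2 • n) := by
      rcases h1 with h1 | h1
      · have := AddSubgroup.add_mem _ h1 h3
        rwa [sub_add_cancel] at this
      · have := AddSubgroup.sub_mem _ h1 h3
        rwa [add_sub_cancel_right] at this
    have h5 := hw (p - 2) (by omega) (by omega)
    have := eq_zero_of_mem_zmultiples hN h4 (by grind) (by grind)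
    grind
  · have e1 : t + (p - 1) • t = p • t := by
      have : p = (p - 1) + 1 := by omega
      conv_rhs => rw [this, add_smul, one_smul]
      abel
    rwa [e1] at h2

end Tent

end Fermat.Agent.S05
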